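import Fermat.Agent.MW.Dominant
import Mathlib.RingTheory.Localization.Away.Basic
import Mathlib.RingTheory.IntegralClosure.IsIntegralClosure.Basic
import Mathlib.RingTheory.Jacobson.Ring
import Mathlib.RingTheory.Localization.InvSubmonoid
import Mathlib.Algebra.MvPolynomial.Funext

/-!
# A transcendental extension has an infinite fibre
-/

set_option autoImplicit false

noncomputable section

namespace FermatAgent.MW

universe uk uA

variable {k : Type uk} [Field k] [IsAlgClosed k]

/-- A finitely generated algebra has a point off any proper ideal containing a given one. -/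
theorem exists_algHom_of_ne_top {R : Type uA} [CommRing R] [Algebra k R] [Algebra.FiniteType k R]
    {I : Ideal R} (hI : I ≠ ⊤) : ∃ φ : R →ₐ[k] k, ∀ x ∈ I, φ x = 0 := by
  obtain ⟨m, hm, hle⟩ := I.exists_le_maximal hI
  let := Ideal.Quotient.field m
  have : Module.Finite k (R ⧸ m) := finite_of_finite_type_of_isJacobsonRing k (R ⧸ m)
  have hbij : Function.Bijective (algebraMap k (R ⧸ m)) :=
    IsAlgClosed.algebraMap_bijective_of_isIntegral
  let e : k ≃ₐ[k] R ⧸ m := AlgEquiv.ofBijective (Algebra.ofId k (R ⧸ m)) hbij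
  refine ⟨e.symm.toAlgHom.comp (Ideal.Quotient.mkₐ k m), fun x hx => ?_⟩
  show e.symm (Ideal.Quotient.mk m x) = 0
  rw [Ideal.Quotient.eq_zero_iff_mem.mpr (hle hx), map_zero]

/-- A non-zero element of a finitely generated domain is non-zero at some point. -/
theorem exists_algHom_apply_ne_zero {R : Type uA} [CommRing R] [IsDomain R] [Algebra k R]
    [Algebra.FiniteType k R] {u : R} (hu : u ≠ 0) : ∃ φ : R →ₐ[k] k, φ u ≠ 0 := by
  have : IsDomain (Localization.Away u) :=
    IsLocalization.isDomain_localization (powers_le_nonZeroDivisors_of_noZeroDivisors hu)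
  have : Algebra.FiniteType R (Localization.Away u) := IsLocalization.finiteType_of_monoid_fg (Submonoid.powers u) _
  have : Algebra.FiniteType k (Localization.Away u) := Algebra.FiniteType.trans (S := R) ‹_› ‹_›
  obtain ⟨φ, -⟩ := exists_algHom_of_ne_top (k := k) (R := Localization.Away u) (I := ⊥) bot_ne_top
  refine ⟨φ.comp (IsScalarTower.toAlgHom k R _), fun h => ?_⟩
  have hunit : IsUnit (algebraMap R (Localization.Away u) u) :=
    IsLocalization.map_units _ ⟨u, Submonoid.mem_powers u⟩
  exact (hunit.map φ).ne_zero h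

/-- If a finitely generated domain is transcendental over a subalgebra, some fibre where a given
element is non-zero is infinite. -/
theorem exists_infinite_fibre {B R : Type uA} [CommRing B] [CommRing R] [IsDomain R] [Algebra k B]
    [Algebra k R] [Algebra.FiniteType k R] [Algebra B R] [IsScalarTower k B R] [FaithfulSMul B R]
    (hna : ¬ Algebra.IsAlgebraic B R) {e : B} (he : e ≠ 0) :
    ∃ χ : B →ₐ[k] k, χ e ≠ 0 ∧
      {φ : R →ₐ[k] k | ∀ b, φ (algebraMap B R b) = χ b}.Infinite := by
  classical
  have hinj : Function.Injective (algebraMap B R) := FaithfulSMul.algebraMap_injective B R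
  have : IsDomain B := hinj.isDomain _
  obtain ⟨t, ht⟩ := exists_isTranscendenceBasis B R
  obtain ⟨i⟩ : Nonempty t := by
    by_contra hemp
    exact hna (ht.isEmpty_iff_isAlgebraic.mp (not_nonempty_iff.mp hemp))
  set S := Algebra.adjoin B (Set.range (Subtype.val : t → R))
  have : Algebra.IsAlgebraic S R := ht.isAlgebraic
  obtain ⟨g, hg⟩ := (Algebra.FiniteType.out : (⊤ : Subalgebra k R).FG)
  have hden : ∀ x : R, ∃ c : S, c ≠ 0 ∧ IsIntegral S (c • x) := fun x =>
    (Algebra.IsAlgebraic.isAlgebraic (R := S) x).exists_integral_multiple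
  choose c hc0 hcint using hden
  set L : S := algebraMap B S e * ∏ x ∈ g, c x
  have hL : L ≠ 0 := mul_ne_zero (fun h => he (hinj (by
      have := congrArg Subtype.val h
      simpa using this))) (Finset.prod_ne_zero_iff.mpr fun x _ => hc0 x)
  obtain ⟨P, hP⟩ : ∃ P : MvPolynomial t B, MvPolynomial.aeval Subtype.val P = (L : R) :=
    (Algebra.adjoin_range_eq_range_aeval B (Subtype.val : t → R)).le L.2
  have hP0 : P ≠ 0 := fun h => hL (Subtype.ext (by rw [← hP, h, map_zero]; rfl))
  obtain ⟨d, hd⟩ := MvPolynomial.ne_zero_iff.mp hP0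
  obtain ⟨φ₀, hφ₀⟩ := exists_algHom_apply_ne_zero (k := k)
    (u := algebraMap B R (e * P.coeff d)) (fun h => mul_ne_zero he hd (hinj (h.trans (map_zero _).symm)))
  set χ : B →ₐ[k] k := φ₀.comp (IsScalarTower.toAlgHom k B R)
  have hχ : ∀ b, χ b = φ₀ (algebraMap B R b) := fun b => rfl
  have hed : χ e ≠ 0 ∧ χ (P.coeff d) ≠ 0 := mul_ne_zero_iff.mp (by rw [← map_mul, hχ]; exact hφ₀)
  refine ⟨χ, hed.1, ?_⟩
  set P₀ : MvPolynomial t k := MvPolynomial.map χ.toRingHom P
  have hP₀ : P₀ ≠ 0 := fun h => hed.2 (by
    have := congrArg (MvPolynomial.coeff d) h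
    rwa [MvPolynomial.coeff_map, MvPolynomial.coeff_zero] at this)
  let Y : Set (t → k) := {y | MvPolynomial.eval y P₀ ≠ 0}
  have hY : ((fun y : t → k => y i) '' Y).Infinite := fun hfin => by
    have hz : P₀ * ∏ a ∈ hfin.toFinset, (MvPolynomial.X i - MvPolynomial.C a) = 0 := by
      refine MvPolynomial.funext fun y => ?_
      rw [map_zero, map_mul]
      by_cases hy : MvPolynomial.eval y P₀ = 0
      · rw [hy, zero_mul]
      · refine mul_eq_zero_of_right _ ?_
        rw [map_prod]
        exact Finset.prod_eq_zero (hfin.mem_toFinset.mpr ⟨y, hy, rfl⟩) (by simp)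
    rcases mul_eq_zero.mp hz with h | h
    · exact hP₀ h
    · obtain ⟨a, -, ha⟩ := Finset.prod_eq_zero_iff.mp h
      have := congrArg (MvPolynomial.eval fun _ => a + 1) ha
      simp at this
  have hext : ∀ y ∈ Y, ∃ φ : R →ₐ[k] k, (∀ b, φ (algebraMap B R b) = χ b) ∧ φ i.1 = y i := by
    intro y hy
    let eS := ht.1.aevalEquiv
    let θ₀ : MvPolynomial t B →ₐ[k] k :=
      { MvPolynomial.eval₂Hom χ.toRingHom y with
        commutes' := fun r => by
          simp [IsScalarTower.algebraMap_apply k B (MvPolynomial t B)] }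
    let θ : S →ₐ[k] k := θ₀.comp (eS.symm.toAlgHom.restrictScalars k)
    have hθ : ∀ p, θ (eS p) = MvPolynomial.eval₂ χ.toRingHom y p := fun p => by
      show θ₀ (eS.symm (eS p)) = _
      rw [AlgEquiv.symm_apply_apply]; rfl
    have hθL : θ L ≠ 0 := by
      have : L = eS P := Subtype.ext (by rw [ht.1.aevalEquiv_apply_coe, hP])
      rw [this, hθ, ← MvPolynomial.eval_map]
      exact hy
    set S' := integralClosure S R
    let ι : S →ₐ[k] S' := (Algebra.ofId S S').restrictScalars k
    obtain ⟨φ', hφ'⟩ := exists_algHom_extend ι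
      (fun x => (inferInstance : Algebra.IsIntegral S S').isIntegral x) θ fun b hb => by
        have : b = 0 := Subtype.ext (show (b : R) = 0 from congrArg (fun z : S' => (z : R)) hb)
        rw [this, map_zero]
    let Q : Ideal R := Ideal.span (Subtype.val '' {x : S' | φ' x = 0})
    have hQ : Q ≠ ⊤ := fun hQ => by
      have h1 : (1 : R) ∈ Q := hQ ▸ Submodule.mem_top
      obtain ⟨cf, hsupp, hsum⟩ := Submodule.mem_span_set.mp h1
      have hclear : ∀ x : R, ∃ N, (L : R) ^ N * x ∈ S'.toSubring := fun x => by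
        have hx : x ∈ Algebra.adjoin k (g : Set R) := hg ▸ Algebra.mem_top
        induction hx using Algebra.adjoin_induction with
        | mem a ha =>
          refine ⟨1, ?_⟩
          obtain ⟨q, hq⟩ : c a ∣ L :=
            (Finset.dvd_prod_of_mem c (Finset.mem_coe.mp ha)).mul_left _
          rw [pow_one, hq, Subalgebra.coe_mul, mul_comm (c a : R), mul_assoc]
          exact mul_mem (S'.algebraMap_mem q) (hcint a)
        | algebraMap r =>
          refine ⟨0, ?_⟩
          rw [pow_zero, one_mul, IsScalarTower.algebraMap_apply k S R]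
          exact S'.algebraMap_mem _
        | add a b _ _ ha hb =>
          obtain ⟨m, hm⟩ := ha
          obtain ⟨n, hn⟩ := hb
          refine ⟨m + n, ?_⟩
          rw [show (L : R) ^ (m + n) * (a + b) =
            (L : R) ^ n * ((L : R) ^ m * a) + (L : R) ^ m * ((L : R) ^ n * b) by ring]
          exact add_mem (mul_mem (pow_mem (S'.algebraMap_mem L) n) hm)
            (mul_mem (pow_mem (S'.algebraMap_mem L) m) hn)
        | mul a b _ _ ha hb =>
          obtain ⟨m, hm⟩ := ha
          obtain ⟨n, hn⟩ := hb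
          refine ⟨m + n, ?_⟩
          rw [show (L : R) ^ (m + n) * (a * b) = (L : R) ^ m * a * ((L : R) ^ n * b) by ring]
          exact mul_mem hm hn
      choose N hN using fun z => hclear (cf z)
      set n := cf.support.sup N
      have hL' : (L : R) ^ n ∈ S'.toSubring := pow_mem (S'.algebraMap_mem L) n
      have hzero : ∀ z ∈ cf.support, ∃ w : S', φ' w = 0 ∧ (w : R) = (L : R) ^ n * (cf z * z) := by
        intro z hz
        obtain ⟨z', hz', rfl⟩ := hsupp hz
        have hmem : (L : R) ^ (n - N z'.1) * ((L : R) ^ N z'.1 * cf z'.1) ∈ S'.toSubring :=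
          mul_mem (pow_mem (S'.algebraMap_mem L) _) (hN _)
        refine ⟨(⟨_, hmem⟩ : S') * z', by rw [map_mul, show φ' z' = 0 from hz', mul_zero], ?_⟩
        show (L : R) ^ (n - N z'.1) * ((L : R) ^ N z'.1 * cf z'.1) * z' = _
        rw [← mul_assoc, ← pow_add, Nat.sub_add_cancel (Finset.le_sup hz), mul_assoc]
      choose w hw hwv using hzero
      have hpow : ι (L ^ n) = ∑ z ∈ cf.support.attach, w z.1 z.2 := Subtype.ext (by
        rw [AddSubmonoidClass.coe_finsetSum]
        simp only [hwv]
        rw [Finset.sum_attach cf.support fun z => (L : R) ^ n * (cf z * z), ← Finset.mul_sum,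
          show ∑ z ∈ cf.support, cf z * z = 1 from hsum, mul_one]
        rfl)
      have h2 := congrArg φ' hpow
      rw [hφ', map_sum, Finset.sum_eq_zero fun z _ => hw _ _, map_pow] at h2
      exact hθL (eq_zero_of_pow_eq_zero h2)
    obtain ⟨φ, hφ⟩ := exists_algHom_of_ne_top (k := k) hQ
    have hS : ∀ x : S, φ (x : R) = θ x := fun x => by
      set z : S' := ι x - algebraMap k S' (θ x)
      have h0 := hφ (z : R) (Ideal.subset_span ⟨z, by simp [z, hφ'], rfl⟩)
      rw [show (z : R) = (x : R) - algebraMap k R (θ x) from rfl, map_sub, AlgHom.commutes,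
        sub_eq_zero] at h0
      exact h0
    refine ⟨φ, fun b => ?_, ?_⟩
    · rw [← show (eS (MvPolynomial.C b) : R) = algebraMap B R b by
        rw [ht.1.aevalEquiv_apply_coe, MvPolynomial.aeval_C], hS, hθ, MvPolynomial.eval₂_C]
      rfl
    · rw [← show (eS (MvPolynomial.X i) : R) = i.1 by
        rw [ht.1.aevalEquiv_apply_coe, MvPolynomial.aeval_X], hS, hθ, MvPolynomial.eval₂_X]
  refine fun hfin => hY ((hfin.image fun f => f i.1).subset ?_)
  rintro _ ⟨y, hy, rfl⟩
  obtain ⟨φ, hφB, hφi⟩ := hext y hy
  exact ⟨φ, hφB, hφi⟩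

/-- A map of finitely generated domains with finite fibres where `e` is non-zero is injective if
the source embeds in the target by some other map. -/
theorem injective_of_finite_fibres {A R : Type uA} [CommRing A] [IsDomain A] [Algebra k A]
    [Algebra.FiniteType k A] [CommRing R] [IsDomain R] [Algebra k R] [Algebra.FiniteType k R]
    (j ψ : A →ₐ[k] R) (hj : Function.Injective j) {e : A} (he : ψ e ≠ 0)
    (hfib : ∀ χ : A →ₐ[k] k, χ e ≠ 0 → {φ : R →ₐ[k] k | ∀ a, φ (ψ a) = χ a}.Finite) :
    Function.Injective ψ := by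
  let B := ψ.range
  have : FaithfulSMul B R :=
    (faithfulSMul_iff_algebraMap_injective B R).mpr Subtype.val_injective
  by_cases halg : Algebra.IsAlgebraic B R
  · have h1 : Algebra.trdeg k B = Algebra.trdeg k R := by
      obtain ⟨t, ht⟩ := exists_isTranscendenceBasis B R
      have := ht.isEmpty_iff_isAlgebraic.mpr halg
      have h0 : Algebra.trdeg B R = 0 := by rw [← ht.cardinalMk_eq_trdeg, Cardinal.mk_eq_zero]
      rw [← trdeg_add_eq k B (A := R), h0, add_zero]
    have h2 : Algebra.trdeg k B ≤ Algebra.trdeg k A :=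
      trdeg_le_of_surjective ψ.rangeRestrict ψ.rangeRestrict_surjective
    have h3 := trdeg_le_of_injective j hj
    have hres := injective_of_trdeg_eq ψ.rangeRestrict ψ.rangeRestrict_surjective
      (le_antisymm h2 (h3.trans h1.ge))
    exact fun a b h => hres (Subtype.ext h)
  exfalso
  obtain ⟨χ, hχe, hinf⟩ := exists_infinite_fibre (k := k) (B := B) (R := R) halg
    (e := ψ.rangeRestrict e) fun h => he (congrArg Subtype.val h)
  refine hinf ((hfib (χ.comp ψ.rangeRestrict) hχe).subset fun φ hφ a => ?_)
  exact hφ (ψ.rangeRestrict a)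

end FermatAgent.MW
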