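import Fermat.Agent.MW.MulDiv.Graph
import Fermat.Agent.MW.MulDiv.Fibre
import Mathlib.RingTheory.Ideal.MinimalPrime.Localization

/-!
# `Pic⁰` is divisible by every positive integer with finite torsion
-/

set_option autoImplicit false

noncomputable section

open AlgebraicCurve FermatAgent.Curve MvPolynomial

namespace FermatAgent.MW

variable {K F : Type*} [Field K] [Field F] [Algebra K F] [IsAlgClosed K] [IsFunctionField1 K F]

/-- Normalised points of the graph over a given non-degenerate image are finitely many. -/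
theorem finite_section [CharZero K] {M : Divisor K F} (hM : IsBig M) {s : Finset (Place K F)}
    (hs : Large M s) {n : ℕ} (hfin : {R : Pic0 K F | n • R = 0}.Finite)
    {j : Fin (rk M) → s} {b : (Fin (rk M) → s) → K} (hbj : b j ≠ 0) :
    {x : (Fin (rk M) → s) ⊕ (Fin (rk M) → s) → K | x ∈ mulGraph M s n ∧ x (Sum.inr j) = 1 ∧
      x (Sum.inl j) • (x ∘ Sum.inr) = b}.Finite := by
  rcases Set.eq_empty_or_nonempty {x : (Fin (rk M) → s) ⊕ (Fin (rk M) → s) → K |
      x ∈ mulGraph M s n ∧ x (Sum.inr j) = 1 ∧ x (Sum.inl j) • (x ∘ Sum.inr) = b} with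
    hemp | ⟨x₀, hx₀⟩
  · rw [hemp]; exact Set.finite_empty
  have key : ∀ x : (Fin (rk M) → s) ⊕ (Fin (rk M) → s) → K, x ∈ mulGraph M s n →
      x (Sum.inr j) = 1 → x (Sum.inl j) • (x ∘ Sum.inr) = b →
      x ∘ Sum.inr = (b j)⁻¹ • b ∧ ∃ y, x ∘ Sum.inl = (b j / coord M s y j) • coord M s y ∧
        ∃ d : K, d ≠ 0 ∧ (b j)⁻¹ • b = d • coord M s (n • y) := by
    intro x hxΓ hx1 hxb
    have hxj : x (Sum.inl j) = b j := by
      rw [← congrFun hxb j, Pi.smul_apply, Function.comp_apply, hx1, smul_eq_mul, mul_one]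
    have hxr : x ∘ Sum.inr = (b j)⁻¹ • b := by
      rw [hxj] at hxb
      rw [eq_inv_smul_iff₀ hbj, hxb]
    obtain ⟨κ, y, hy⟩ := exists_eq_smul_of_mem_imgSet hxΓ.1
    have hyj : κ * coord M s y j = b j := (congrFun hy j).symm.trans hxj
    have hκ : κ ≠ 0 := fun h => hbj (by rw [← hyj, h, zero_mul])
    obtain ⟨d, hd⟩ := hxΓ.2.2 y κ hκ hy
    refine ⟨hxr, y, ?_, d, fun h => ?_, hxr.symm.trans hd⟩
    · rw [← hyj, mul_div_cancel_right₀ _ fun h => hbj (by rw [← hyj, h, mul_zero])]
      exact hy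
    · have := congrFun hd j
      rw [h, zero_smul, Function.comp_apply, hx1] at this
      exact one_ne_zero this
  obtain ⟨-, y₀, -, d₀, hd₀, hy₀⟩ := key x₀ hx₀.1 hx₀.2.1 hx₀.2.2
  refine (((hfin.image (y₀ + ·)).union (hfin.image (-y₀ + ·))).image fun y =>
    Sum.elim ((b j / coord M s y j) • coord M s y) ((b j)⁻¹ • b)).subset fun x hx => ?_
  obtain ⟨hxr, y, hxl, d, hd, hy⟩ := key x hx.1 hx.2.1 hx.2.2
  refine ⟨y, ?_, show Sum.elim ((b j / coord M s y j) • coord M s y) ((b j)⁻¹ • b) = x by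
    rw [← hxl, ← hxr, Sum.elim_comp_inl_inr]⟩
  rcases eq_or_eq_neg_of_smul_coord hM hs hd (hy.symm.trans hy₀) with h | h
  · exact Or.inl ⟨y - y₀, show n • (y - y₀) = 0 by rw [nsmul_sub, h, sub_self],
      add_sub_cancel _ _⟩
  · exact Or.inr ⟨y + y₀, show n • (y + y₀) = 0 by rw [nsmul_add, h, neg_add_cancel],
      by show -y₀ + (y + y₀) = y; abel⟩

/-- If the kernel of multiplication by `n` is finite, multiplication by `n` is surjective. -/
theorem exists_nsmul_eq_of_finite [CharZero K] {n : ℕ}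
    (hfin : {R : Pic0 K F | n • R = 0}.Finite) (a : Pic0 K F) : ∃ x : Pic0 K F, n • x = a := by
  classical
  have := RR.infinite_place (K := K) (F := F)
  obtain ⟨M₀, G₀, s, s', hM₀, hG₀, hs, hs'⟩ :=
    exists_isBig_large (Classical.arbitrary (Place K F))
  have hM : IsBig (M₀ + G₀) := isBig_add hM₀ (by omega)
  have hΓ := isAlg_mulGraph hM₀ hG₀ hs hs' n
  generalize M₀ + G₀ = M at *
  let T := Fin (rk M) → s'
  have hC := isAlg_imgSet hM hs'
  have hprime := isPrime_vanishingIdeal_imgSet hM hs'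
  set C := imgSet M s'
  have hΓzero : ∀ c ∈ C, Sum.elim (0 : T → K) c ∈ mulGraph M s' n := fun c hc =>
    elim_zero_mem_mulGraph hM hs' n rfl hc
  -- the image
  let img : Set (T → K) :=
    {w | ∃ v : T → K, v ≠ 0 ∧ Sum.elim w v ∈ {z : T ⊕ T → K | z ∘ Sum.swap ∈ mulGraph M s' n}}
  have himg : IsAlg img := (hΓ.comp Sum.swap).exists_ne_zero fun w v c _ h => by
    obtain ⟨h1, h2, h3⟩ := h
    refine ⟨smul_mem_imgSet (c := c) h1, h2, fun y κ hκ hy => ?_⟩
    rename_i hc
    obtain ⟨e, he⟩ := h3 y (c⁻¹ * κ) (mul_ne_zero (inv_ne_zero hc) hκ) (by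
      rw [← smul_smul, ← hy]
      funext i
      show v i = c⁻¹ * (c * v i)
      rw [inv_mul_cancel_left₀ hc])
    exact ⟨e, he⟩
  have himgC : ∀ w ∈ img, w ∈ C := fun w ⟨v, _, hv⟩ => hv.2.1
  -- a linear form and the section
  obtain ⟨j, hj⟩ := Function.ne_iff.mp (coord_ne_zero hM hs' (0 : Pic0 K F))
  have hmem : ∀ p : MvPolynomial T K, (∀ w ∈ img, eval w p = 0) → ∀ x ∈ C, eval x p = 0 := by
    let Y : Set (T ⊕ T → K) := {x | x ∈ mulGraph M s' n ∧ x (Sum.inr j) = 1}
    have hY : IsAlg Y := hΓ.and ⟨{X (Sum.inr j) - MvPolynomial.C 1}, by ext x; simp [sub_eq_zero]⟩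
    let ι₀ : MvPolynomial T K →ₐ[K] CoordRing Y :=
      aeval fun i => Ideal.Quotient.mk (vanishingIdeal K Y) (X (Sum.inl i))
    have hι₀ : ∀ q x (hx : x ∈ Y), evalAt hx (ι₀ q) = eval (x ∘ Sum.inl) q := fun q x hx => by
      rw [← AlgHom.comp_apply, comp_aeval, ← aeval_eq_eval]
      exact congrArg (fun w => aeval w q) (funext fun i => (evalAt_mk hx _).trans (eval_X _))
    let ι : CoordRing C →ₐ[K] CoordRing Y := Ideal.Quotient.liftₐ _ ι₀ fun q hq =>
      coordRing_ext fun x hx => by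
        rw [hι₀, map_zero]
        simpa [aeval_eq_eval] using hq _ hx.1.1
    have hιinj : Function.Injective ι := by
      refine (injective_iff_map_eq_zero ι).mpr fun b hb => ?_
      obtain ⟨q, rfl⟩ := Ideal.Quotient.mk_surjective b
      -- classes whose multiple has vanishing coordinate form a proper closed subset
      let bad : Set (T → K) :=
        {v | ∃ c : T → K, c ≠ 0 ∧ Sum.elim v c ∈
          {z : T ⊕ T → K | z ∈ mulGraph M s' n ∧ z (Sum.inr j) = 0}}
      have hbad : IsAlg bad := (hΓ.and (⟨{X (Sum.inr j)}, by ext z; simp⟩ :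
        IsAlg {z : T ⊕ T → K | z (Sum.inr j) = 0})).exists_ne_zero fun v c e _ h => by
          obtain ⟨⟨h1, h2, h3⟩, h4⟩ := h
          refine ⟨⟨h1, smul_mem_imgSet (c := e) h2, fun y κ hκ hy => ?_⟩, ?_⟩
          · obtain ⟨d, hd⟩ := h3 y κ hκ hy
            exact ⟨e * d, (congrArg (e • ·) hd).trans (smul_smul _ _ _)⟩
          · show e * c j = 0
            rw [show c j = 0 from h4, mul_zero]
      obtain ⟨P, hP⟩ := hbad
      have h0 : coord M s' (0 : Pic0 K F) ∉ bad := fun ⟨c, hc, h, hcj⟩ => by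
        obtain ⟨e, he⟩ := h.2.2 0 1 one_ne_zero (one_smul K _).symm
        rw [smul_zero] at he
        change c = e • coord M s' (0 : Pic0 K F) at he
        change c j = 0 at hcj
        rw [he] at hcj hc
        exact (mul_eq_zero.mp hcj).elim (fun h' => hc (by rw [h', zero_smul])) hj
      obtain ⟨p, hpP, hp⟩ : ∃ p ∈ P, eval (coord M s' (0 : Pic0 K F)) p ≠ 0 := by
        by_contra hall
        push Not at hall
        exact h0 (hP ▸ hall)
      have hz : ∀ x ∈ C, eval x (q * (p * X j)) = 0 := fun x hx => by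
        rw [map_mul, map_mul, eval_X]
        by_cases hxb : eval x p = 0
        · rw [hxb, zero_mul, mul_zero]
        by_cases hxj : x j = 0
        · rw [hxj, mul_zero, mul_zero]
        obtain ⟨κ, y, rfl⟩ := exists_eq_smul_of_mem_imgSet hx
        have hcj : coord M s' (n • y) j ≠ 0 := fun h => by
          have hb' : κ • coord M s' y ∈ bad :=
            ⟨coord M s' (n • y), coord_ne_zero hM hs' _,
              by simpa using smul_coord_mem_mulGraph hM hs' n y κ 1, h⟩
          rw [hP] at hb'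
          exact hxb (hb' p hpP)
        have hxY : Sum.elim (κ • coord M s' y) ((coord M s' (n • y) j)⁻¹ • coord M s' (n • y)) ∈ Y :=
          ⟨smul_coord_mem_mulGraph hM hs' n y κ _, inv_mul_cancel₀ hcj⟩
        have h1 := congrArg (evalAt hxY) hb
        rw [map_zero] at h1
        change evalAt hxY (ι₀ q) = 0 at h1
        rw [hι₀, Sum.elim_comp_inl] at h1
        rw [h1, zero_mul]
      have hprod : q * (p * X j) ∈ vanishingIdeal K C := fun x hx => by
        rw [aeval_eq_eval]; exact hz x hx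
      rcases hprime.mem_or_mem hprod with h | h
      · exact Ideal.Quotient.eq_zero_iff_mem.mpr h
      · have := h _ (coord_mem_imgSet M s' 0)
        rw [aeval_eq_eval, map_mul, eval_X] at this
        exact absurd this (mul_ne_zero hp hj)
    obtain ⟨P, hPprime, hPcomap⟩ := Ideal.exists_comap_eq_of_mem_minimalPrimes_of_injective
      (f := ι.toRingHom) hιinj ⊥ (by
        rw [IsDomain.minimalPrimes_eq_singleton_bot]; rfl)
    let R := CoordRing Y ⧸ P
    let j' : CoordRing C →ₐ[K] R := (Ideal.Quotient.mkₐ K P).comp ι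
    have hj' : Function.Injective j' := (injective_iff_map_eq_zero j').mpr fun b hb => by
      have : b ∈ P.comap ι.toRingHom :=
        (Ideal.Quotient.eq_zero_iff_mem (I := P)).mp (show Ideal.Quotient.mk P (ι b) = 0 from hb)
      rwa [hPcomap, Ideal.mem_bot] at this
    let ψ₀ : MvPolynomial T K →ₐ[K] CoordRing Y :=
      aeval fun i => Ideal.Quotient.mk (vanishingIdeal K Y) (X (Sum.inl j) * X (Sum.inr i))
    have hψ₀ : ∀ q x (hx : x ∈ Y), evalAt hx (ψ₀ q) =
        eval (x (Sum.inl j) • (x ∘ Sum.inr)) q := fun q x hx => by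
      rw [← AlgHom.comp_apply, comp_aeval, ← aeval_eq_eval]
      refine congrArg (fun w => aeval w q) (funext fun i => (evalAt_mk hx _).trans ?_)
      rw [map_mul, eval_X, eval_X]
      rfl
    let ψ : CoordRing C →ₐ[K] R := Ideal.Quotient.liftₐ _ ((Ideal.Quotient.mkₐ K P).comp ψ₀)
      fun q hq => by
        show Ideal.Quotient.mk P (ψ₀ q) = 0
        rw [show ψ₀ q = 0 from coordRing_ext fun x hx => by
          rw [hψ₀, map_zero]
          simpa [aeval_eq_eval] using hq _ (smul_mem_imgSet (c := x (Sum.inl j)) hx.1.2.1), map_zero]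
    suffices hψ : Function.Injective ψ by
      intro p hp x hx
      have hz : ψ₀ p = 0 := coordRing_ext fun z hz => by
        rw [hψ₀, map_zero]
        refine hp _ ?_
        rcases eq_or_ne (z (Sum.inl j)) 0 with h0 | h0
        · refine ⟨coord M s' 0, coord_ne_zero hM hs' _, ?_⟩
          show Sum.elim (z (Sum.inl j) • (z ∘ Sum.inr)) (coord M s' 0) ∘ Sum.swap ∈ mulGraph M s' n
          rw [h0, zero_smul]
          have := smul_coord_mem_mulGraph hM hs' n (0 : Pic0 K F) 1 0
          rw [one_smul, zero_smul] at this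
          convert this using 1
          funext i; rcases i with i | i <;> rfl
        · refine ⟨z ∘ Sum.inl, fun h => h0 (congrFun h j), ?_⟩
          obtain ⟨h1, h2, h3⟩ := hz.1
          refine ⟨h1, smul_mem_imgSet (c := z (Sum.inl j)) h2, fun y κ hκ hy => ?_⟩
          obtain ⟨e, he⟩ := h3 y κ hκ hy
          exact ⟨z (Sum.inl j) * e, (congrArg (z (Sum.inl j) • ·) he).trans (smul_smul _ _ _)⟩
      have h1 : ψ (Ideal.Quotient.mk _ p) = 0 := by
        show Ideal.Quotient.mk P (ψ₀ p) = 0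
        rw [hz, map_zero]
      have h2 := (injective_iff_map_eq_zero ψ).mp hψ _ h1
      simpa [aeval_eq_eval] using Ideal.Quotient.eq_zero_iff_mem.mp h2 x hx
    refine injective_of_finite_fibres (k := K) (A := CoordRing C) (R := R) j' ψ hj' (e := Ideal.Quotient.mk _ (X j)) ?_ fun χ hχ => ?_
    · rw [show ψ (Ideal.Quotient.mk _ (X j)) = j' (Ideal.Quotient.mk _ (X j)) by
        show Ideal.Quotient.mk P (ψ₀ (X j)) = Ideal.Quotient.mk P (ι₀ (X j))
        congr 1
        refine coordRing_ext fun x hx => ?_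
        rw [hψ₀, hι₀, eval_X, eval_X, Pi.smul_apply, Function.comp_apply, Function.comp_apply, hx.2,
          smul_eq_mul, mul_one]]
      intro h
      have h4 := Ideal.Quotient.eq_zero_iff_mem.mp ((injective_iff_map_eq_zero j').mp hj' _ h)
      exact hj (by simpa [aeval_eq_eval] using h4 _ (coord_mem_imgSet M s' 0))
    set b : T → K := fun i => χ (Ideal.Quotient.mk _ (X i))
    choose pt hpt hpteq using fun φ : R →ₐ[K] K =>
      exists_point_of_algHom hY (φ.comp (Ideal.Quotient.mkₐ K P))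
    have hfib : ∀ φ : R →ₐ[K] K, (∀ u, φ (ψ u) = χ u) →
        pt φ (Sum.inl j) • (pt φ ∘ Sum.inr) = b := fun φ hφ => funext fun i => by
      have h1 := hφ (Ideal.Quotient.mk _ (X i))
      change φ (Ideal.Quotient.mk P (ψ₀ (X i))) = _ at h1
      simp only [ψ₀, aeval_X] at h1
      have h2 := hpteq φ (X (Sum.inl j) * X (Sum.inr i))
      simp only [map_mul, eval_X] at h1 h2
      exact h2.symm.trans h1
    refine ((finite_section hM hs' hfin (b := b) (j := j) hχ).preimage (f := pt) ?_).subset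
      fun φ hφ => ⟨(hpt φ).1, (hpt φ).2, hfib φ hφ⟩
    intro φ _ φ' _ h
    refine AlgHom.ext fun r => ?_
    obtain ⟨r, rfl⟩ := Ideal.Quotient.mk_surjective r
    obtain ⟨q, rfl⟩ := Ideal.Quotient.mk_surjective r
    exact (hpteq φ q).trans ((congrArg (fun v => eval v q) h).trans (hpteq φ' q).symm)
  -- conclusion
  obtain ⟨P, hP⟩ := himg
  have ha : coord M s' a ∈ img := by
    rw [hP]
    intro p hp
    exact hmem p (fun w hw => by rw [hP] at hw; exact hw p hp) _ (coord_mem_imgSet M s' a)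
  obtain ⟨v, hv0, hv⟩ := ha
  obtain ⟨κ, y, hy⟩ := exists_eq_smul_of_mem_imgSet hv.1
  change v = κ • coord M s' y at hy
  have hκ : κ ≠ 0 := fun h => hv0 (by rw [hy, h, zero_smul])
  obtain ⟨e, he⟩ := hv.2.2 y κ hκ hy
  change coord M s' a = e • coord M s' (n • y) at he
  rcases eq_or_eq_neg_of_smul_coord hM hs' one_ne_zero ((one_smul K _).trans he) with h | h
  · exact ⟨y, h.symm⟩
  · exact ⟨-y, by rw [h]; exact map_neg (nsmulAddMonoidHom (α := Pic0 K F) n) y⟩

end FermatAgent.MW
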