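import Fermat.Agent.MW.Inertia
import Fermat.Agent.MW.Elim

/-!
# The graph of multiplication by a natural number is algebraic
-/

set_option autoImplicit false

noncomputable section

open AlgebraicCurve FermatAgent.Curve MvPolynomial

namespace FermatAgent.MW

variable {K F : Type*} [Field K] [Field F] [Algebra K F] [IsAlgClosed K] [IsFunctionField1 K F]

/-- A bilinear expression in the products of pairs of two groups of variables. -/
def bilPoly {U W T' : Type*} [Fintype U] (B : (U × U → K) →ₗ[K] (U × U → K) →ₗ[K] (T' → K))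
    (f g : U → W) (Q : T') : MvPolynomial W K :=
  haveI := Classical.decEq U
  ∑ p : U × U, ∑ q : U × U,
    C (B (Pi.single p 1) (Pi.single q 1) Q) * (X (f p.1) * X (f p.2) * (X (g q.1) * X (g q.2)))

omit [IsAlgClosed K] in
theorem eval_bilPoly {U W T' : Type*} [Fintype U]
    (B : (U × U → K) →ₗ[K] (U × U → K) →ₗ[K] (T' → K)) (f g : U → W) (Q : T') (x : W → K) :
    eval x (bilPoly B f g Q) = B (pairs (x ∘ f)) (pairs (x ∘ g)) Q := by
  classical
  conv_rhs => rw [pi_eq_sum_univ' (pairs (x ∘ f)), pi_eq_sum_univ' (pairs (x ∘ g))]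
  simp only [bilPoly, map_sum, map_mul, eval_C, eval_X, map_smul, LinearMap.sum_apply,
    LinearMap.smul_apply, Finset.sum_apply, Pi.smul_apply, smul_eq_mul, Finset.mul_sum, pairs,
    Function.comp_apply]
  rw [Finset.sum_comm]
  exact Finset.sum_congr rfl fun p _ => Finset.sum_congr rfl fun q _ => by ring

/-- The graph of multiplication by `n` on the coordinates. -/
def mulGraph (M : Divisor K F) (s : Finset (Place K F)) (n : ℕ) :
    Set ((Fin (rk M) → s) ⊕ (Fin (rk M) → s) → K) :=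
  {x | x ∘ Sum.inl ∈ imgSet M s ∧ x ∘ Sum.inr ∈ imgSet M s ∧
    ∀ (y : Pic0 K F) (κ : K), κ ≠ 0 → x ∘ Sum.inl = κ • coord M s y →
      ∃ e : K, x ∘ Sum.inr = e • coord M s (n • y)}

theorem smul_coord_mem_mulGraph [CharZero K] {M : Divisor K F} (hM : IsBig M)
    {s : Finset (Place K F)} (hs : Large M s) (n : ℕ) (y : Pic0 K F) (κ e : K) :
    Sum.elim (κ • coord M s y) (e • coord M s (n • y)) ∈ mulGraph M s n := by
  refine ⟨smul_mem_imgSet (coord_mem_imgSet M s y) κ, smul_mem_imgSet (coord_mem_imgSet M s _) e,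
    fun y' κ' hκ' h => ?_⟩
  rw [Sum.elim_comp_inl] at h
  rw [Sum.elim_comp_inr]
  rcases eq_or_eq_neg_of_smul_coord hM hs hκ' h.symm with rfl | rfl
  · exact ⟨e, rfl⟩
  · obtain ⟨c, -, hc⟩ := sameLine_coord_neg hM s (-(n • y))
    rw [neg_neg] at hc
    exact ⟨e * c, by rw [show n • -y = -(n • y) from map_neg (nsmulAddMonoidHom (α := Pic0 K F) n) y, hc, smul_smul]⟩

theorem elim_zero_mem_mulGraph {M : Divisor K F} (hM : IsBig M) {s : Finset (Place K F)}
    (hs : Large M s) (n : ℕ) {a c : (Fin (rk M) → s) → K} (ha : a = 0) (hc : c ∈ imgSet M s) :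
    Sum.elim a c ∈ mulGraph M s n := by
  subst ha
  refine ⟨⟨0, 0, ?_⟩, hc, fun y κ hκ h => ?_⟩
  · rw [Sum.elim_comp_inl, zero_smul]
  · rw [Sum.elim_comp_inl] at h
    exact absurd h.symm (smul_ne_zero hκ (coord_ne_zero hM hs y))

theorem isAlg_mulGraph [CharZero K] {M G₀ : Divisor K F} (hM : IsBig M)
    (hG₀ : 2 * (genusFF K F : ℤ) + 1 ≤ Divisor.degree G₀) {s : Finset (Place K F)}
    (hs : Large M s) {s' : Finset (Place K F)} (hs' : Large (M + G₀) s') (n : ℕ) :
    IsAlg (mulGraph (M + G₀) s' n) := by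
  classical
  have hM' : IsBig (M + G₀) := isBig_add hM (by omega)
  obtain ⟨Λ, hΛ⟩ := exists_halfTorsion hM hG₀ s hs' (R := 0) (add_zero 0)
  obtain ⟨B, hB⟩ := exists_bilinear hM hG₀ hs hs'
  have hC := isAlg_imgSet hM' hs'
  have hbase : IsAlg {x : (Fin (rk (M + G₀)) → s') ⊕ (Fin (rk (M + G₀)) → s') → K | x ∘ Sum.inl ∈ imgSet (M + G₀) s' ∧ x ∘ Sum.inr ∈ imgSet (M + G₀) s'} :=
    (hC.comp Sum.inl).and (hC.comp Sum.inr)
  induction n using Nat.strong_induction_on with
  | _ n ih =>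
  rcases n with - | - | k
  · -- multiplication by zero
    convert hbase.inter (isAlg_forall fun i : (Fin (rk (M + G₀)) → s') => isAlg_forall fun j : (Fin (rk (M + G₀)) → s') => isAlg_forall fun l : (Fin (rk (M + G₀)) → s') =>
      (⟨{X (.inl l) * (X (.inr i) * C (coord (M + G₀) s' 0 j) - X (.inr j) * C (coord (M + G₀) s' 0 i))},
        rfl⟩ : IsAlg {x : (Fin (rk (M + G₀)) → s') ⊕ (Fin (rk (M + G₀)) → s') → K | ∀ p ∈ ({X (.inl l) * (X (.inr i) * C (coord (M + G₀) s' 0 j) -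
          X (.inr j) * C (coord (M + G₀) s' 0 i))} : Set (MvPolynomial ((Fin (rk (M + G₀)) → s') ⊕ (Fin (rk (M + G₀)) → s')) K)), eval x p = 0})) using 1
    ext x
    simp only [Set.mem_inter_iff, Set.mem_ofPred_eq, Set.mem_singleton_iff, forall_eq, map_mul,
      map_sub, eval_X, eval_C]
    constructor
    · intro hx
      refine ⟨⟨hx.1, hx.2.1⟩, fun i j l => ?_⟩
      rcases eq_or_ne (x (.inl l)) 0 with h0 | h0
      · rw [h0, zero_mul]
      obtain ⟨κ, y, hy⟩ := exists_eq_smul_of_mem_imgSet hx.1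
      have hκ : κ ≠ 0 := fun h => h0 (by
        have := congrFun hy l; rw [h, zero_smul] at this; exact this)
      obtain ⟨e, he⟩ := hx.2.2 y κ hκ hy
      rw [zero_nsmul] at he
      rw [show x (.inr i) = e * coord (M + G₀) s' 0 i from congrFun he i,
        show x (.inr j) = e * coord (M + G₀) s' 0 j from congrFun he j]
      ring
    · rintro ⟨⟨h1, h2⟩, h3⟩
      refine ⟨h1, h2, fun y κ hκ hy => ?_⟩
      obtain ⟨l, hl⟩ := Function.ne_iff.mp (smul_ne_zero hκ (coord_ne_zero hM' hs' y))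
      rw [zero_nsmul]
      refine exists_eq_smul_of_mul_eq (coord_ne_zero hM' hs' 0) fun i j => sub_eq_zero.mp ?_
      exact (mul_eq_zero.mp (h3 i j l)).resolve_left fun h0 => hl ((congrFun hy l).symm.trans h0)
  · -- multiplication by one
    convert hbase.inter (isAlg_forall fun i : (Fin (rk (M + G₀)) → s') => isAlg_forall fun j : (Fin (rk (M + G₀)) → s') =>
      (⟨{X (.inl i) * X (.inr j) - X (.inl j) * X (.inr i)}, rfl⟩ :
        IsAlg {x : (Fin (rk (M + G₀)) → s') ⊕ (Fin (rk (M + G₀)) → s') → K | ∀ p ∈ ({X (.inl i) * X (.inr j) - X (.inl j) * X (.inr i)} :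
          Set (MvPolynomial ((Fin (rk (M + G₀)) → s') ⊕ (Fin (rk (M + G₀)) → s')) K)), eval x p = 0})) using 1
    ext x
    simp only [Set.mem_inter_iff, Set.mem_ofPred_eq, Set.mem_singleton_iff, forall_eq, map_mul,
      map_sub, eval_X]
    constructor
    · intro hx
      refine ⟨⟨hx.1, hx.2.1⟩, fun i j => ?_⟩
      obtain ⟨κ, y, hy⟩ := exists_eq_smul_of_mem_imgSet hx.1
      rcases eq_or_ne κ 0 with hκ | hκ
      · rw [hκ, zero_smul] at hy
        rw [show x (.inl i) = 0 from congrFun hy i, show x (.inl j) = 0 from congrFun hy j]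
        ring
      obtain ⟨e, he⟩ := hx.2.2 y κ hκ hy
      rw [zero_add, one_nsmul] at he
      rw [show x (.inl i) = κ * coord (M + G₀) s' y i from congrFun hy i,
        show x (.inl j) = κ * coord (M + G₀) s' y j from congrFun hy j,
        show x (.inr i) = e * coord (M + G₀) s' y i from congrFun he i,
        show x (.inr j) = e * coord (M + G₀) s' y j from congrFun he j]
      ring
    · rintro ⟨⟨h1, h2⟩, h3⟩
      refine ⟨h1, h2, fun y κ hκ hy => ?_⟩
      rw [zero_add, one_nsmul]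
      refine exists_eq_smul_of_mul_eq (coord_ne_zero hM' hs' y) fun i j => ?_
      refine mul_left_cancel₀ hκ ?_
      have h4 := h3 j i
      rw [show x (.inl i) = κ * coord (M + G₀) s' y i from congrFun hy i,
        show x (.inl j) = κ * coord (M + G₀) s' y j from congrFun hy j] at h4
      show κ * (x (.inr i) * coord (M + G₀) s' y j) = κ * (x (.inr j) * coord (M + G₀) s' y i)
      linear_combination h4
  · -- the step
    have ih1 := ih (k + 1) (by omega)
    have ih0 := ih k (by omega)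
    let ga : (Fin (rk (M + G₀)) → s') → (((Fin (rk (M + G₀)) → s') ⊕ (Fin (rk (M + G₀)) → s')) ⊕ (Fin (rk (M + G₀)) → s')) ⊕ (Fin (rk (M + G₀)) → s') := fun i => .inl (.inl (.inl i))
    let gc : (Fin (rk (M + G₀)) → s') → (((Fin (rk (M + G₀)) → s') ⊕ (Fin (rk (M + G₀)) → s')) ⊕ (Fin (rk (M + G₀)) → s')) ⊕ (Fin (rk (M + G₀)) → s') := fun i => .inl (.inl (.inr i))
    let gb : (Fin (rk (M + G₀)) → s') → (((Fin (rk (M + G₀)) → s') ⊕ (Fin (rk (M + G₀)) → s')) ⊕ (Fin (rk (M + G₀)) → s')) ⊕ (Fin (rk (M + G₀)) → s') := fun i => .inl (.inr i)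
    let gb' : (Fin (rk (M + G₀)) → s') → (((Fin (rk (M + G₀)) → s') ⊕ (Fin (rk (M + G₀)) → s')) ⊕ (Fin (rk (M + G₀)) → s')) ⊕ (Fin (rk (M + G₀)) → s') := Sum.inr
    let lhs : (Fin (rk M) → s) → MvPolynomial ((((Fin (rk (M + G₀)) → s') ⊕ (Fin (rk (M + G₀)) → s')) ⊕ (Fin (rk (M + G₀)) → s')) ⊕ (Fin (rk (M + G₀)) → s')) K := fun Q =>
      rename gc (linPoly Λ Q) * rename gb' (linPoly Λ Q)
    let rhs : (Fin (rk M) → s) → MvPolynomial ((((Fin (rk (M + G₀)) → s') ⊕ (Fin (rk (M + G₀)) → s')) ⊕ (Fin (rk (M + G₀)) → s')) ⊕ (Fin (rk (M + G₀)) → s')) K := bilPoly B gb ga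
    let S : Set ((((Fin (rk (M + G₀)) → s') ⊕ (Fin (rk (M + G₀)) → s')) ⊕ (Fin (rk (M + G₀)) → s')) ⊕ (Fin (rk (M + G₀)) → s') → K) := {x |
      ((x ∘ ga ∈ imgSet (M + G₀) s' ∧ x ∘ gc ∈ imgSet (M + G₀) s') ∧
        (x ∘ Sum.elim ga gb ∈ mulGraph (M + G₀) s' (k + 1) ∧ x ∘ Sum.elim ga gb' ∈ mulGraph (M + G₀) s' k)) ∧
      ∀ i j, eval x (minorPoly lhs rhs (i, j)) = 0}
    have hS : IsAlg S := (((hC.comp ga).and (hC.comp gc)).and
      ((ih1.comp (Sum.elim ga gb)).and (ih0.comp (Sum.elim ga gb')))).and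
      (isAlg_forall fun i => isAlg_forall fun j => isAlg_setOf_eval_eq_zero _)
    have hval : ∀ (x : (((Fin (rk (M + G₀)) → s') ⊕ (Fin (rk (M + G₀)) → s')) ⊕ (Fin (rk (M + G₀)) → s')) ⊕ (Fin (rk (M + G₀)) → s') → K) i j, eval x (minorPoly lhs rhs (i, j)) =
        (Λ (x ∘ gc) * Λ (x ∘ gb')) i * B (pairs (x ∘ gb)) (pairs (x ∘ ga)) j -
        (Λ (x ∘ gc) * Λ (x ∘ gb')) j * B (pairs (x ∘ gb)) (pairs (x ∘ ga)) i := fun x i j => by
      simp only [eval_minorPoly, lhs, rhs, map_mul, eval_rename, eval_linPoly, eval_bilPoly,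
        Pi.mul_apply]
    have h1 := hS.exists_ne_zero fun a b c _ h => by
      refine ⟨⟨h.1.1, h.1.2.1, ?_⟩, fun i j => ?_⟩
      · obtain ⟨h2, h3, h4⟩ := h.1.2.2
        refine ⟨h2, smul_mem_imgSet h3 c, fun y κ hκ hy => ?_⟩
        obtain ⟨e, he⟩ := h4 y κ hκ hy
        exact ⟨c * e, (congrArg (c • ·) he).trans (smul_smul _ _ _)⟩
      · have := h.2 i j
        rw [hval] at this ⊢
        simp only [gb', Sum.elim_comp_inr, map_smul, Pi.mul_apply, Pi.smul_apply, smul_eq_mul] at this ⊢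
        simp only [show Sum.elim a (c • b) ∘ gc = Sum.elim a b ∘ gc from rfl,
          show Sum.elim a (c • b) ∘ gb = Sum.elim a b ∘ gb from rfl,
          show Sum.elim a (c • b) ∘ ga = Sum.elim a b ∘ ga from rfl]
        linear_combination c * this
    have h2 := h1.exists_ne_zero fun a b c _ h => by
      obtain ⟨b', hb', h⟩ := h
      refine ⟨b', hb', ⟨h.1.1, ?_, h.1.2.2⟩, fun i j => ?_⟩
      · obtain ⟨h2, h3, h4⟩ := h.1.2.1
        refine ⟨h2, smul_mem_imgSet h3 c, fun y κ hκ hy => ?_⟩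
        obtain ⟨e, he⟩ := h4 y κ hκ hy
        exact ⟨c * e, (congrArg (c • ·) he).trans (smul_smul _ _ _)⟩
      · have := h.2 i j
        rw [hval] at this ⊢
        simp only [show Sum.elim (Sum.elim a (c • b)) b' ∘ gc = Sum.elim (Sum.elim a b) b' ∘ gc from rfl,
          show Sum.elim (Sum.elim a (c • b)) b' ∘ gb = c • (Sum.elim (Sum.elim a b) b' ∘ gb) from rfl,
          show Sum.elim (Sum.elim a (c • b)) b' ∘ ga = Sum.elim (Sum.elim a b) b' ∘ ga from rfl,
          show Sum.elim (Sum.elim a (c • b)) b' ∘ gb' = Sum.elim (Sum.elim a b) b' ∘ gb' from rfl,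
          pairs_smul, map_smul, LinearMap.smul_apply, Pi.smul_apply, smul_eq_mul]
        linear_combination c ^ 2 * this
    convert h2 using 1
    ext x
    constructor
    · intro hx
      have hneg : ∀ (m : ℕ) (y : Pic0 K F) (κ : K), x ∘ Sum.inl = κ • coord (M + G₀) s' y →
          Sum.elim (x ∘ Sum.inl) (coord (M + G₀) s' (m • y)) ∈ mulGraph (M + G₀) s' m := fun m y κ hy => by
        rw [hy]
        simpa using smul_coord_mem_mulGraph hM' hs' m y κ 1
      obtain ⟨κ, y, hy⟩ := exists_eq_smul_of_mem_imgSet hx.1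
      refine ⟨coord (M + G₀) s' ((k + 1) • y), coord_ne_zero hM' hs' _, coord (M + G₀) s' (k • y),
        coord_ne_zero hM' hs' _, ⟨⟨hx.1, hx.2.1⟩, ?_, ?_⟩, fun i j => ?_⟩
      · have h := hneg (k + 1) y κ hy
        convert h using 1
        funext z; rcases z with z | z <;> rfl
      · have h := hneg k y κ hy
        convert h using 1
        funext z; rcases z with z | z <;> rfl
      rw [hval]
      show (Λ (x ∘ Sum.inr) * Λ (coord (M + G₀) s' (k • y))) i *
          B (pairs (coord (M + G₀) s' ((k + 1) • y))) (pairs (x ∘ Sum.inl)) j -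
        (Λ (x ∘ Sum.inr) * Λ (coord (M + G₀) s' (k • y))) j *
          B (pairs (coord (M + G₀) s' ((k + 1) • y))) (pairs (x ∘ Sum.inl)) i = 0
      rcases eq_or_ne κ 0 with hκ | hκ
      · rw [hy, hκ, pairs_smul]
        simp
      obtain ⟨e, he⟩ := hx.2.2 y κ hκ hy
      obtain ⟨d₁, -, e₁⟩ := hΛ ((k + 1 + 1) • y)
      obtain ⟨d₂, -, e₂⟩ := hΛ (k • y)
      obtain ⟨d₃, -, e₃⟩ := hB ((k + 1) • y) y
      rw [parFun, ← succ_nsmul, show (k + 1) • y - y = k • y by rw [succ_nsmul, add_sub_cancel_right]] at e₃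
      simp only [he, hy, map_smul, e₁, e₂, e₃, pairs_smul, add_zero,
        Pi.mul_apply, Pi.smul_apply, smul_eq_mul]
      ring
    · rintro ⟨b, hb, b', hb', ⟨⟨hxa, hxc⟩, hgb, hgb'⟩, hmin⟩
      refine ⟨hxa, hxc, fun y κ hκ hy => ?_⟩
      obtain ⟨e₁, he₁⟩ := hgb.2.2 y κ hκ hy
      obtain ⟨e₀, he₀⟩ := hgb'.2.2 y κ hκ hy
      change b = e₁ • coord (M + G₀) s' ((k + 1) • y) at he₁
      change b' = e₀ • coord (M + G₀) s' (k • y) at he₀
      have he₁0 : e₁ ≠ 0 := fun h => hb (by rw [he₁, h, zero_smul])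
      have he₀0 : e₀ ≠ 0 := fun h => hb' (by rw [he₀, h, zero_smul])
      obtain ⟨f, z, hz⟩ := exists_eq_smul_of_mem_imgSet hxc
      change x ∘ Sum.inr = f • coord (M + G₀) s' z at hz
      rcases eq_or_ne f 0 with hf | hf
      · exact ⟨0, by rw [hz, hf, zero_smul, zero_smul]⟩
      obtain ⟨d₁, hd₁, e1⟩ := hΛ z
      obtain ⟨d₂, hd₂, e2⟩ := hΛ (k • y)
      obtain ⟨d₃, hd₃, e3⟩ := hB ((k + 1) • y) y
      rw [parFun, ← succ_nsmul, show (k + 1) • y - y = k • y by rw [succ_nsmul, add_sub_cancel_right]] at e3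
      obtain ⟨d, hd⟩ := exists_eq_smul_of_mul_eq
        (coord_mul_ne_zero hM hs ((k + 1 + 1) • y) (k • y))
        (u := coord M s z * coord M s (k • y)) fun i j => by
          have h := hmin i j
          rw [hval] at h
          change (Λ (x ∘ Sum.inr) * Λ b') i * B (pairs b) (pairs (x ∘ Sum.inl)) j -
            (Λ (x ∘ Sum.inr) * Λ b') j * B (pairs b) (pairs (x ∘ Sum.inl)) i = 0 at h
          simp only [he₁, he₀, hy, hz, map_smul, e1, e2, e3, pairs_smul, add_zero,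
            LinearMap.smul_apply, Pi.mul_apply, Pi.smul_apply, smul_eq_mul] at h ⊢
          refine sub_eq_zero.mp ((mul_eq_zero.mp ?_).resolve_left
            (mul_ne_zero (mul_ne_zero (mul_ne_zero (mul_ne_zero (mul_ne_zero (mul_ne_zero hf hd₁) he₀0)
              hd₂) (pow_ne_zero 2 he₁0)) (pow_ne_zero 2 hκ)) hd₃))
          linear_combination h
      rcases eq_or_eq_neg_of_mul_coord hM hs hd with rfl | rfl
      · exact ⟨f, hz⟩
      · obtain ⟨c, -, hc⟩ := sameLine_coord_neg hM' s' ((k + 1 + 1) • y)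
        exact ⟨f * c, by rw [hz, hc, smul_smul]⟩

end FermatAgent.MW
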