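import Fermat.Agent.MW.MulDiv.Divisible
import Fermat.Agent.ModCurve.Points.GenusBar
import Fermat.Agent.ModCurve.Torsion.Model

/-!
# `J₀(N)(ℚ̄)` is divisible
-/

set_option autoImplicit false
set_option synthInstance.maxHeartbeats 200000

noncomputable section

open ModularCurve FermatAgent.Curve

namespace FermatAgent.MW

open ModCurveTorsion in
/-- `J₀(N)(ℚ̄)` is divisible by every positive integer. -/
theorem exists_nsmul_eq_jZero {N : ℕ} [NeZero N] (M : TorsionModel N) {n : ℕ} (hn : 0 < n)
    (x : JZero N) : ∃ y : JZero N, n • y = x :=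
  exists_nsmul_eq_of_finite ((M.torsion_finite hn).subset fun R hR => by
    show (n : ℤ) • R = 0
    rw [natCast_zsmul]; exact hR) x

end FermatAgent.MW
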